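/-
T16 / LB-H1 (HEDGE, helper9): cohomological Hecke operators on `Additive (Gamma0 N) →+ A`
from the prelude coset relations `heckeRep_mul` (`ℓ ∤ N`) and `heckeMatrix_mul_of_dvd` (`ℓ ∣ N`).

Exports (namespace `Fermat.Agent.S16_helper9`):
* `cohT`, `cohU`, `cohGen N A l`
* `cohGen_comp`            naturality in the coefficient group
* `cohGen_apply_T`, `cohGen_apply_U`   apply lemmas in the consumer shape (∃ σ t, relation ∧ sum)
* `cohGen_charInvolution`  commutation with the prelude `charInvolution`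
-/
import Mathlib
import Fermat.Prelude.Sol.S_ModularForm_heckeT_slash_eq_self_of_mem_Gamma0
import Fermat.Prelude.Def_ModularCurve_PeriodHomPair

set_option autoImplicit false

open scoped MatrixGroups
open CongruenceSubgroup Matrix Matrix.SpecialLinearGroup
open P2MW.S_ModularForm_heckeT_slash_eq_self_of_mem_Gamma0.ModularForm.HeckeSlashInvariance

namespace Fermat.Agent.S16_helper9

/-! ## Abstract transfer-type operator -/

section Abstract

variable {Γ : Type*} [Group Γ] {X : Type*} [Fintype X] {A : Type*} [AddCommGroup A]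

/-- The operator `φ ↦ (g ↦ ∑ x, φ (c x g))` attached to a cocycle `c` over a right action `σ`. -/
def cohOp (σ : Γ → Equiv.Perm X) (c : X → Γ → Γ)
    (hc : ∀ x g h, c x (g * h) = c x g * c (σ g x) h) :
    (Additive Γ →+ A) →+ (Additive Γ →+ A) where
  toFun φ := AddMonoidHom.mk' (fun g => ∑ x, φ (Additive.ofMul (c x (Additive.toMul g))))
    (fun a b => by
      have h1 : ∀ x, φ (Additive.ofMul (c x (Additive.toMul (a + b))))
          = φ (Additive.ofMul (c x (Additive.toMul a)))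
            + φ (Additive.ofMul (c (σ (Additive.toMul a) x) (Additive.toMul b))) := by
        intro x
        rw [toMul_add, hc, ofMul_mul, map_add]
      rw [Finset.sum_congr rfl (fun x _ => h1 x), Finset.sum_add_distrib]
      congr 1
      exact Equiv.sum_comp (σ (Additive.toMul a))
        (fun y => φ (Additive.ofMul (c y (Additive.toMul b)))))
  map_zero' := by
    ext g
    simp
  map_add' φ ψ := by
    ext g
    simp [Finset.sum_add_distrib]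

@[simp] theorem cohOp_apply (σ : Γ → Equiv.Perm X) (c : X → Γ → Γ)
    (hc : ∀ x g h, c x (g * h) = c x g * c (σ g x) h) (φ : Additive Γ →+ A) (g : Γ) :
    cohOp σ c hc φ (Additive.ofMul g) = ∑ x, φ (Additive.ofMul (c x g)) := rfl

theorem cohOp_comp {B : Type*} [AddCommGroup B] (σ : Γ → Equiv.Perm X) (c : X → Γ → Γ)
    (hc : ∀ x g h, c x (g * h) = c x g * c (σ g x) h) (f : A →+ B) (φ : Additive Γ →+ A) :
    cohOp σ c hc (f.comp φ) = f.comp (cohOp σ c hc φ) := by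
  ext g
  show ∑ x, f (φ _) = f (∑ x, φ _)
  rw [map_sum]

/-- Independence of the coset representatives, pointwise at a fixed group element `γ`. -/
theorem sum_eq_sum_of_rel {G : Type*} [Group G] (ι : Γ →* G) (hι : Function.Injective ι)
    (γ : Γ) (α α' : X → G) (σ σ' : Equiv.Perm X) (c c' : X → Γ)
    (h : ∀ x, α x * ι γ = ι (c x) * α (σ x))
    (h' : ∀ x, α' x * ι γ = ι (c' x) * α' (σ' x))
    (τ : Equiv.Perm X) (t : X → Γ) (hα : ∀ x, α' x = ι (t x) * α (τ x))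
    (hτ : ∀ x, τ (σ' x) = σ (τ x)) (φ : Additive Γ →+ A) :
    ∑ x, φ (Additive.ofMul (c' x)) = ∑ x, φ (Additive.ofMul (c x)) := by
  have key : ∀ x, t x * c (τ x) = c' x * t (σ' x) := by
    intro x
    apply hι
    have h1 := h' x
    rw [hα x, hα (σ' x), hτ x, mul_assoc, h (τ x)] at h1
    -- ι (t x) * (ι (c (τ x)) * α (σ (τ x))) = ι (c' x) * (ι (t (σ' x)) * α (σ (τ x)))
    rw [← mul_assoc, ← mul_assoc] at h1
    have h2 := mul_right_cancel h1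
    rw [map_mul, map_mul]
    exact h2
  have key2 : ∀ x, φ (Additive.ofMul (c' x))
      = φ (Additive.ofMul (t x)) + φ (Additive.ofMul (c (τ x)))
        - φ (Additive.ofMul (t (σ' x))) := by
    intro x
    have := congrArg (fun y => φ (Additive.ofMul y)) (key x)
    simp only [ofMul_mul, map_add] at this
    rw [this]
    abel
  rw [Finset.sum_congr rfl (fun x _ => key2 x), Finset.sum_sub_distrib, Finset.sum_add_distrib,
    Equiv.sum_comp σ' (fun y => φ (Additive.ofMul (t y))),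
    Equiv.sum_comp τ (fun y => φ (Additive.ofMul (c y)))]
  abel

/-- Variant of `sum_eq_sum_of_rel` where the compatibility of the permutations is derived from
the uniqueness of the coset decomposition. -/
theorem sum_eq_sum_of_rel_of_unique {G : Type*} [Group G] (ι : Γ →* G)
    (hι : Function.Injective ι)
    (γ : Γ) (α α' : X → G) (σ σ' : Equiv.Perm X) (c c' : X → Γ)
    (h : ∀ x, α x * ι γ = ι (c x) * α (σ x))
    (h' : ∀ x, α' x * ι γ = ι (c' x) * α' (σ' x))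
    (τ : Equiv.Perm X) (t : X → Γ) (hα : ∀ x, α' x = ι (t x) * α (τ x))
    (uniq : ∀ (g : Γ) (y₁ y₂ : X), ι g * α y₁ = α y₂ → y₁ = y₂) (φ : Additive Γ →+ A) :
    ∑ x, φ (Additive.ofMul (c' x)) = ∑ x, φ (Additive.ofMul (c x)) := by
  refine sum_eq_sum_of_rel ι hι γ α α' σ σ' c c' h h' τ t hα (fun x => ?_) φ
  have h1 := h' x
  rw [hα x, hα (σ' x), mul_assoc, h (τ x)] at h1
  -- ι (t x) * (ι (c (τ x)) * α (σ (τ x))) = ι (c' x) * (ι (t (σ' x)) * α (τ (σ' x)))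
  refine (uniq ((c' x * t (σ' x))⁻¹ * (t x * c (τ x))) (σ (τ x)) (τ (σ' x)) ?_).symm
  rw [map_mul, map_inv, map_mul, map_mul, mul_assoc, mul_assoc, h1, ← mul_assoc (ι (c' x)),
    ← mul_assoc, inv_mul_cancel, one_mul]

end Abstract

/-! ## The case `ℓ ∤ N` -/

theorem dvd_coe_one_zero (N : ℕ) (g : Gamma0 N) : (N : ℤ) ∣ ((g : SL(2, ℤ)) 1 0) :=
  (ZMod.intCast_zmod_eq_zero_iff_dvd _ _).mp (Gamma0_mem.mp g.2)

theorem mapGL_coe_mul (N : ℕ) (g h : Gamma0 N) :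
    mapGL ℝ ((g * h : Gamma0 N) : SL(2, ℤ)) = mapGL ℝ (g : SL(2, ℤ)) * mapGL ℝ (h : SL(2, ℤ)) := by
  rw [Subgroup.coe_mul, map_mul]

section TCase

variable (N : ℕ) (ℓ : ℕ) [Fact ℓ.Prime]

theorem redMatrix_mul (g h : SL(2, ℤ)) :
    redMatrix ℓ (g * h) = redMatrix ℓ h * redMatrix ℓ g := by
  apply Matrix.GeneralLinearGroup.ext
  intro i j
  rw [Matrix.GeneralLinearGroup.coe_mul, Matrix.mul_apply, Fin.sum_univ_two]
  fin_cases i <;> fin_cases j <;>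
    simp [Matrix.SpecialLinearGroup.coe_mul, Matrix.mul_apply, Fin.sum_univ_two] <;> ring

theorem exists_cT (hℓN : ¬ ℓ ∣ N) (x : OnePoint (ZMod ℓ)) (g : Gamma0 N) :
    ∃ g' : Gamma0 N, heckeRep ℓ x * mapGL ℝ (g : SL(2, ℤ))
      = mapGL ℝ (g' : SL(2, ℤ)) * heckeRep ℓ (redMatrix ℓ (g : SL(2, ℤ)) • x) := by
  obtain ⟨g', hg', h⟩ := heckeRep_mul hℓN (g : SL(2, ℤ)) (dvd_coe_one_zero N g) x
  exact ⟨⟨g', Gamma0_mem.mpr ((ZMod.intCast_zmod_eq_zero_iff_dvd _ _).mpr hg')⟩, h⟩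

/-- The cocycle `c(x, g)` of the `T_ℓ` cosets. -/
noncomputable def cT (hℓN : ¬ ℓ ∣ N) (x : OnePoint (ZMod ℓ)) (g : Gamma0 N) : Gamma0 N :=
  (exists_cT N ℓ hℓN x g).choose

theorem cT_spec (hℓN : ¬ ℓ ∣ N) (x : OnePoint (ZMod ℓ)) (g : Gamma0 N) :
    heckeRep ℓ x * mapGL ℝ (g : SL(2, ℤ))
      = mapGL ℝ (cT N ℓ hℓN x g : SL(2, ℤ)) * heckeRep ℓ (redMatrix ℓ (g : SL(2, ℤ)) • x) :=
  (exists_cT N ℓ hℓN x g).choose_spec

/-- The permutation of `ℙ¹(𝔽_ℓ)` attached to `g`. -/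
noncomputable def sigT (g : Gamma0 N) : Equiv.Perm (OnePoint (ZMod ℓ)) :=
  MulAction.toPerm (redMatrix ℓ (g : SL(2, ℤ)))

@[simp] theorem sigT_apply (g : Gamma0 N) (x : OnePoint (ZMod ℓ)) :
    sigT N ℓ g x = redMatrix ℓ (g : SL(2, ℤ)) • x := rfl

theorem cT_mul (hℓN : ¬ ℓ ∣ N) (x : OnePoint (ZMod ℓ)) (g h : Gamma0 N) :
    cT N ℓ hℓN x (g * h) = cT N ℓ hℓN x g * cT N ℓ hℓN (sigT N ℓ g x) h := by
  apply Subtype.ext
  apply mapGL_injective (S := ℝ)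
  have h1 := cT_spec N ℓ hℓN x (g * h)
  have h2 := cT_spec N ℓ hℓN x g
  have h3 := cT_spec N ℓ hℓN (redMatrix ℓ (g : SL(2, ℤ)) • x) h
  have hred : redMatrix ℓ ((g * h : Gamma0 N) : SL(2, ℤ)) • x
      = redMatrix ℓ (h : SL(2, ℤ)) • (redMatrix ℓ (g : SL(2, ℤ)) • x) := by
    rw [Subgroup.coe_mul, redMatrix_mul, mul_smul]
  rw [hred, mapGL_coe_mul, ← mul_assoc, h2, mul_assoc, h3, ← mul_assoc] at h1
  have h4 := mul_right_cancel h1
  rw [sigT_apply, Subgroup.coe_mul, map_mul]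
  exact h4.symm

/-- The cohomological `T_ℓ`. -/
noncomputable def cohT (A : Type*) [AddCommGroup A] (hℓN : ¬ ℓ ∣ N) :
    (Additive (Gamma0 N) →+ A) →+ (Additive (Gamma0 N) →+ A) :=
  cohOp (sigT N ℓ) (cT N ℓ hℓN) (cT_mul N ℓ hℓN)

theorem cohT_apply (A : Type*) [AddCommGroup A] (hℓN : ¬ ℓ ∣ N)
    (φ : Additive (Gamma0 N) →+ A) (g : Gamma0 N) :
    cohT N ℓ A hℓN φ (Additive.ofMul g) = ∑ x, φ (Additive.ofMul (cT N ℓ hℓN x g)) := rfl

end TCase

/-! ## The case `ℓ ∣ N` -/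

section UCase

variable (N : ℕ) (ℓ : ℕ) [NeZero ℓ]

theorem dvd_of_dvd_level {N ℓ : ℕ} (hℓN : ℓ ∣ N) (g : Gamma0 N) :
    (ℓ : ℤ) ∣ ((g : SL(2, ℤ)) 1 0) :=
  (Int.natCast_dvd_natCast.mpr hℓN).trans (dvd_coe_one_zero N g)

theorem cast_eq_zero_of_dvd_level {N ℓ : ℕ} (hℓN : ℓ ∣ N) (g : Gamma0 N) :
    ((((g : SL(2, ℤ)) 1 0 : ℤ)) : ZMod ℓ) = 0 :=
  (ZMod.intCast_zmod_eq_zero_iff_dvd _ _).mpr (dvd_of_dvd_level hℓN g)

/-- The permutation of `𝔽_ℓ` attached to `g`. -/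
noncomputable def sigU (hℓN : ℓ ∣ N) (g : Gamma0 N) : Equiv.Perm (ZMod ℓ) :=
  affinePerm (g : SL(2, ℤ)) (cast_eq_zero_of_dvd_level hℓN g)

theorem sigU_apply (hℓN : ℓ ∣ N) (g : Gamma0 N) (x : ZMod ℓ) :
    sigU N ℓ hℓN g x = (((g : SL(2, ℤ)) 1 1 : ℤ) : ZMod ℓ) *
      ((((g : SL(2, ℤ)) 0 1 : ℤ) : ZMod ℓ) + (((g : SL(2, ℤ)) 1 1 : ℤ) : ZMod ℓ) * x) := rfl

theorem sigU_mul (hℓN : ℓ ∣ N) (g h : Gamma0 N) (x : ZMod ℓ) :
    sigU N ℓ hℓN (g * h) x = sigU N ℓ hℓN h (sigU N ℓ hℓN g x) := by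
  have hu := unit_of_apply_one_zero_eq_zero (p := ℓ) (g : SL(2, ℤ))
    (cast_eq_zero_of_dvd_level hℓN g)
  have hc := cast_eq_zero_of_dvd_level hℓN g
  rw [sigU_apply, sigU_apply, sigU_apply, Subgroup.coe_mul,
    Matrix.SpecialLinearGroup.coe_mul, Matrix.mul_apply, Matrix.mul_apply, Fin.sum_univ_two,
    Fin.sum_univ_two]
  push_cast
  rw [hc]
  linear_combination ((((h : SL(2, ℤ)) 1 1 : ℤ) : ZMod ℓ) * (((h : SL(2, ℤ)) 0 1 : ℤ) : ZMod ℓ)) * hu

theorem exists_cU (hℓN : ℓ ∣ N) (x : ZMod ℓ) (g : Gamma0 N) :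
    ∃ g' : Gamma0 N, ModularForm.heckeMatrix ℓ x.val * mapGL ℝ (g : SL(2, ℤ))
      = mapGL ℝ (g' : SL(2, ℤ)) * ModularForm.heckeMatrix ℓ (sigU N ℓ hℓN g x).val := by
  obtain ⟨g', hg', h⟩ := heckeMatrix_mul_of_dvd (g : SL(2, ℤ)) (dvd_of_dvd_level hℓN g) x
  refine ⟨⟨g', Gamma0_mem.mpr ((ZMod.intCast_zmod_eq_zero_iff_dvd _ _).mpr ?_)⟩, h⟩
  rw [hg']
  exact Dvd.dvd.mul_left (dvd_coe_one_zero N g) _

/-- The cocycle `c(x, g)` of the `U_ℓ` cosets. -/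
noncomputable def cU (hℓN : ℓ ∣ N) (x : ZMod ℓ) (g : Gamma0 N) : Gamma0 N :=
  (exists_cU N ℓ hℓN x g).choose

theorem cU_spec (hℓN : ℓ ∣ N) (x : ZMod ℓ) (g : Gamma0 N) :
    ModularForm.heckeMatrix ℓ x.val * mapGL ℝ (g : SL(2, ℤ))
      = mapGL ℝ (cU N ℓ hℓN x g : SL(2, ℤ)) *
        ModularForm.heckeMatrix ℓ (sigU N ℓ hℓN g x).val :=
  (exists_cU N ℓ hℓN x g).choose_spec

theorem cU_mul (hℓN : ℓ ∣ N) (x : ZMod ℓ) (g h : Gamma0 N) :
    cU N ℓ hℓN x (g * h) = cU N ℓ hℓN x g * cU N ℓ hℓN (sigU N ℓ hℓN g x) h := by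
  apply Subtype.ext
  apply mapGL_injective (S := ℝ)
  have h1 := cU_spec N ℓ hℓN x (g * h)
  have h2 := cU_spec N ℓ hℓN x g
  have h3 := cU_spec N ℓ hℓN (sigU N ℓ hℓN g x) h
  rw [sigU_mul, mapGL_coe_mul, ← mul_assoc, h2, mul_assoc, h3, ← mul_assoc] at h1
  have h4 := mul_right_cancel h1
  rw [Subgroup.coe_mul, map_mul]
  exact h4.symm

/-- The cohomological `U_ℓ`. -/
noncomputable def cohU (A : Type*) [AddCommGroup A] (hℓN : ℓ ∣ N) :
    (Additive (Gamma0 N) →+ A) →+ (Additive (Gamma0 N) →+ A) :=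
  cohOp (sigU N ℓ hℓN) (cU N ℓ hℓN) (cU_mul N ℓ hℓN)

theorem cohU_apply (A : Type*) [AddCommGroup A] (hℓN : ℓ ∣ N)
    (φ : Additive (Gamma0 N) →+ A) (g : Gamma0 N) :
    cohU N ℓ A hℓN φ (Additive.ofMul g) = ∑ x, φ (Additive.ofMul (cU N ℓ hℓN x g)) := rfl

end UCase

/-! ## Conjugation by `diag(1,-1)` -/

section Involution

open ModularCurve.Period

/-- `diag(1,-1)` in `GL(2,ℝ)`. -/
noncomputable def Jreal : GL (Fin 2) ℝ :=
  Matrix.GeneralLinearGroup.mkOfDetNeZero !![1, 0; 0, -1] (by simp [Matrix.det_fin_two_of])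

theorem Jreal_mul_self : Jreal * Jreal = 1 := by
  apply Matrix.GeneralLinearGroup.ext
  intro i j
  fin_cases i <;> fin_cases j <;> simp [Jreal, Matrix.mul_apply, Fin.sum_univ_two]

theorem Jreal_conj_mapGL (g : SL(2, ℤ)) :
    Jreal * mapGL ℝ g * Jreal = mapGL ℝ (jConjSL g) := by
  apply Matrix.GeneralLinearGroup.ext
  intro i j
  rw [Matrix.GeneralLinearGroup.coe_mul, Matrix.GeneralLinearGroup.coe_mul, Matrix.mul_apply,
    Fin.sum_univ_two, Matrix.mul_apply, Matrix.mul_apply, Fin.sum_univ_two, Fin.sum_univ_two]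
  fin_cases i <;> fin_cases j <;>
    simp [Jreal, jConjMat]

/-- The matrix `[[1, -k], [0, 1]]`. -/
def translSL (k : ℤ) : SL(2, ℤ) :=
  ⟨!![1, -k; 0, 1], by rw [Matrix.det_fin_two_of]; ring⟩

@[simp] theorem translSL_apply_zero_zero (k : ℤ) : translSL k 0 0 = 1 := rfl
@[simp] theorem translSL_apply_zero_one (k : ℤ) : translSL k 0 1 = -k := rfl
@[simp] theorem translSL_apply_one_zero (k : ℤ) : translSL k 1 0 = 0 := rfl
@[simp] theorem translSL_apply_one_one (k : ℤ) : translSL k 1 1 = 1 := rfl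

/-- Upper triangular translations, as elements of `Γ₀(N)`. -/
def transl (N : ℕ) (k : ℤ) : Gamma0 N :=
  ⟨translSL k, by rw [Gamma0_mem]; simp⟩

@[simp] theorem coe_transl (N : ℕ) (k : ℤ) : ((transl N k : Gamma0 N) : SL(2, ℤ)) = translSL k :=
  rfl

theorem exists_val_neg_add (ℓ : ℕ) [NeZero ℓ] (x : ZMod ℓ) :
    ∃ k : ℕ, (-x).val + x.val = ℓ * k := by
  have h : (((-x).val + x.val : ℕ) : ZMod ℓ) = 0 := by
    push_cast
    rw [ZMod.natCast_zmod_val, ZMod.natCast_zmod_val]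
    ring
  exact (ZMod.natCast_eq_zero_iff _ _).mp h

theorem Jreal_conj_heckeMatrix (N ℓ : ℕ) [NeZero ℓ] (x : ZMod ℓ) :
    ∃ t : Gamma0 N, Jreal * ModularForm.heckeMatrix ℓ x.val * Jreal
      = mapGL ℝ (t : SL(2, ℤ)) * ModularForm.heckeMatrix ℓ (-x).val := by
  obtain ⟨k, hk⟩ := exists_val_neg_add ℓ x
  refine ⟨transl N k, ?_⟩
  have hk' : (((-x).val : ℝ)) + (x.val : ℝ) = (ℓ : ℝ) * (k : ℝ) := by exact_mod_cast hk
  apply Matrix.GeneralLinearGroup.ext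
  intro i j
  rw [Matrix.GeneralLinearGroup.coe_mul, Matrix.GeneralLinearGroup.coe_mul,
    Matrix.GeneralLinearGroup.coe_mul, Matrix.mul_apply,
    Fin.sum_univ_two, Matrix.mul_apply, Matrix.mul_apply, Matrix.mul_apply, Fin.sum_univ_two,
    Fin.sum_univ_two, Fin.sum_univ_two]
  fin_cases i <;> fin_cases j <;>
    simp [Jreal, NeZero.ne ℓ, -ZMod.natCast_val]
  linear_combination (-1 : ℝ) * hk'

theorem Jreal_conj_heckeDiagMatrix (ℓ : ℕ) [NeZero ℓ] :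
    Jreal * ModularForm.heckeDiagMatrix ℓ * Jreal = ModularForm.heckeDiagMatrix ℓ := by
  apply Matrix.GeneralLinearGroup.ext
  intro i j
  rw [Matrix.GeneralLinearGroup.coe_mul, Matrix.GeneralLinearGroup.coe_mul, Matrix.mul_apply,
    Fin.sum_univ_two, Matrix.mul_apply, Matrix.mul_apply, Fin.sum_univ_two, Fin.sum_univ_two]
  fin_cases i <;> fin_cases j <;>
    simp [Jreal, NeZero.ne ℓ]

/-- The embedding `Γ₀(N) → GL(2,ℝ)`. -/
noncomputable def iotaGL (N : ℕ) : Gamma0 N →* GL (Fin 2) ℝ :=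
  (mapGL ℝ).comp (Gamma0 N).subtype

@[simp] theorem iotaGL_apply (N : ℕ) (g : Gamma0 N) : iotaGL N g = mapGL ℝ (g : SL(2, ℤ)) := rfl

theorem iotaGL_injective (N : ℕ) : Function.Injective (iotaGL N) :=
  (mapGL_injective (S := ℝ)).comp Subtype.val_injective

theorem Jreal_conj_rel (N : ℕ) {a b : GL (Fin 2) ℝ} (g c : Gamma0 N)
    (h : a * mapGL ℝ (g : SL(2, ℤ)) = mapGL ℝ (c : SL(2, ℤ)) * b) :
    (Jreal * a * Jreal) * mapGL ℝ ((jConjGamma0 N g : Gamma0 N) : SL(2, ℤ))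
      = mapGL ℝ ((jConjGamma0 N c : Gamma0 N) : SL(2, ℤ)) * (Jreal * b * Jreal) := by
  rw [jConjGamma0_coe, jConjGamma0_coe, ← Jreal_conj_mapGL, ← Jreal_conj_mapGL]
  calc Jreal * a * Jreal * (Jreal * mapGL ℝ (g : SL(2, ℤ)) * Jreal)
      = Jreal * (a * (Jreal * Jreal) * mapGL ℝ (g : SL(2, ℤ))) * Jreal := by group
    _ = Jreal * (mapGL ℝ (c : SL(2, ℤ)) * b) * Jreal := by rw [Jreal_mul_self, mul_one, h]
    _ = Jreal * (mapGL ℝ (c : SL(2, ℤ)) * (Jreal * Jreal) * b) * Jreal := by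
        rw [Jreal_mul_self, mul_one]
    _ = Jreal * mapGL ℝ (c : SL(2, ℤ)) * Jreal * (Jreal * b * Jreal) := by group

theorem cohU_charInvolution (N ℓ : ℕ) [NeZero ℓ] (A : Type*) [AddCommGroup A] (hℓN : ℓ ∣ N)
    (φ : Additive (Gamma0 N) →+ A) :
    cohU N ℓ A hℓN (charInvolution N ℤ A φ) = charInvolution N ℤ A (cohU N ℓ A hℓN φ) := by
  refine AddMonoidHom.ext fun g' => ?_
  obtain ⟨g, rfl⟩ : ∃ g : Gamma0 N, Additive.ofMul g = g' := ⟨Additive.toMul g', rfl⟩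
  rw [cohU_apply, charInvolution_apply, toMul_ofMul, cohU_apply]
  simp only [charInvolution_apply, toMul_ofMul]
  choose t ht using Jreal_conj_heckeMatrix N ℓ
  refine sum_eq_sum_of_rel (iotaGL N) (iotaGL_injective N) (jConjGamma0 N g)
    (fun x => ModularForm.heckeMatrix ℓ x.val)
    (fun x => Jreal * ModularForm.heckeMatrix ℓ x.val * Jreal)
    (sigU N ℓ hℓN (jConjGamma0 N g)) (sigU N ℓ hℓN g)
    (fun x => cU N ℓ hℓN x (jConjGamma0 N g)) (fun x => jConjGamma0 N (cU N ℓ hℓN x g))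
    (fun x => cU_spec N ℓ hℓN x (jConjGamma0 N g))
    (fun x => Jreal_conj_rel N g _ (cU_spec N ℓ hℓN x g))
    (Equiv.neg (ZMod ℓ)) t (fun x => ht x) ?_ φ
  intro x
  rw [Equiv.neg_apply, sigU_apply, sigU_apply]
  simp only [jConjGamma0_coe, jConjSL_coe, jConjMat_apply_one_one, jConjMat_apply_zero_one]
  push_cast
  ring

section InvolutionT

variable (N ℓ : ℕ) [Fact ℓ.Prime]

/-- `diag(-1, 1)` in `GL(2, 𝔽_ℓ)`. -/
noncomputable def Jbar : GL (Fin 2) (ZMod ℓ) :=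
  Matrix.GeneralLinearGroup.mkOfDetNeZero !![-1, 0; 0, 1] (by simp [Matrix.det_fin_two_of])

theorem Jbar_smul_infty : Jbar ℓ • (OnePoint.infty : OnePoint (ZMod ℓ)) = OnePoint.infty := by
  rw [OnePoint.smul_infty_eq_ite]
  simp [Jbar]

theorem Jbar_smul_coe (j : ZMod ℓ) :
    Jbar ℓ • (j : OnePoint (ZMod ℓ)) = ((-j : ZMod ℓ) : OnePoint (ZMod ℓ)) := by
  rw [OnePoint.smul_some_eq_ite]
  simp [Jbar]

theorem Jbar_mul_redMatrix (g : SL(2, ℤ)) :
    Jbar ℓ * redMatrix ℓ g = redMatrix ℓ (jConjSL g) * Jbar ℓ := by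
  apply Matrix.GeneralLinearGroup.ext
  intro i j
  rw [Matrix.GeneralLinearGroup.coe_mul, Matrix.GeneralLinearGroup.coe_mul, Matrix.mul_apply,
    Matrix.mul_apply, Fin.sum_univ_two, Fin.sum_univ_two]
  fin_cases i <;> fin_cases j <;> simp [Jbar, jConjMat]

theorem Jreal_conj_heckeRep (x : OnePoint (ZMod ℓ)) :
    ∃ t : Gamma0 N, Jreal * heckeRep ℓ x * Jreal
      = mapGL ℝ (t : SL(2, ℤ)) * heckeRep ℓ (Jbar ℓ • x) := by
  induction x using OnePoint.rec with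
  | infty =>
    refine ⟨1, ?_⟩
    rw [Jbar_smul_infty, heckeRep_infty, Jreal_conj_heckeDiagMatrix, OneMemClass.coe_one, map_one,
      one_mul]
  | coe j =>
    obtain ⟨t, ht⟩ := Jreal_conj_heckeMatrix N ℓ j
    refine ⟨t, ?_⟩
    rw [Jbar_smul_coe, heckeRep_coe, heckeRep_coe, ht]

theorem cohT_charInvolution (A : Type*) [AddCommGroup A] (hℓN : ¬ ℓ ∣ N)
    (φ : Additive (Gamma0 N) →+ A) :
    cohT N ℓ A hℓN (charInvolution N ℤ A φ) = charInvolution N ℤ A (cohT N ℓ A hℓN φ) := by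
  refine AddMonoidHom.ext fun g' => ?_
  obtain ⟨g, rfl⟩ : ∃ g : Gamma0 N, Additive.ofMul g = g' := ⟨Additive.toMul g', rfl⟩
  rw [cohT_apply, charInvolution_apply, toMul_ofMul, cohT_apply]
  simp only [charInvolution_apply, toMul_ofMul]
  choose t ht using Jreal_conj_heckeRep N ℓ
  refine sum_eq_sum_of_rel (iotaGL N) (iotaGL_injective N) (jConjGamma0 N g)
    (fun x => heckeRep ℓ x)
    (fun x => Jreal * heckeRep ℓ x * Jreal)
    (sigT N ℓ (jConjGamma0 N g)) (sigT N ℓ g)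
    (fun x => cT N ℓ hℓN x (jConjGamma0 N g)) (fun x => jConjGamma0 N (cT N ℓ hℓN x g))
    (fun x => cT_spec N ℓ hℓN x (jConjGamma0 N g))
    (fun x => Jreal_conj_rel N g _ (cT_spec N ℓ hℓN x g))
    (MulAction.toPerm (Jbar ℓ)) t (fun x => ht x) ?_ φ
  intro x
  rw [MulAction.toPerm_apply, MulAction.toPerm_apply, sigT_apply, sigT_apply, ← mul_smul,
    ← mul_smul, jConjGamma0_coe, Jbar_mul_redMatrix]

end InvolutionT

/-! ## Uniqueness of the coset decomposition and the definition-independent form -/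

section Uniq

theorem heckeMatrix_unique (ℓ : ℕ) [NeZero ℓ] (g : SL(2, ℤ)) (j₁ j₂ : ZMod ℓ)
    (h : mapGL ℝ g * ModularForm.heckeMatrix ℓ j₁.val = ModularForm.heckeMatrix ℓ j₂.val) :
    j₁ = j₂ := by
  have hℓ : (ℓ : ℝ) ≠ 0 := Nat.cast_ne_zero.mpr (NeZero.ne ℓ)
  have h00 := congrArg (fun M : GL (Fin 2) ℝ => M 0 0) h
  have h01 := congrArg (fun M : GL (Fin 2) ℝ => M 0 1) h
  simp only [Matrix.GeneralLinearGroup.coe_mul, Matrix.mul_apply, Fin.sum_univ_two] at h00 h01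
  simp [NeZero.ne ℓ, -ZMod.natCast_val] at h00 h01
  -- h00 : g 0 0 = 1, h01 : g 0 0 * j₁ + g 0 1 * ℓ = j₂
  rw [h00] at h01
  have h2 : ((j₁.val : ℤ) + g 0 1 * (ℓ : ℤ)) = (j₂.val : ℤ) := by
    have h01' : ((j₁.val : ℝ) + ((g 0 1 : ℤ) : ℝ) * (ℓ : ℝ)) = (j₂.val : ℝ) := by
      rw [← h01]; push_cast; ring
    exact_mod_cast h01'
  have h3 := congrArg (Int.cast : ℤ → ZMod ℓ) h2
  push_cast at h3
  rw [ZMod.natCast_self, mul_zero, add_zero, ZMod.natCast_zmod_val, ZMod.natCast_zmod_val] at h3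
  exact h3

theorem heckeRep_unique (ℓ : ℕ) [Fact ℓ.Prime] (g : SL(2, ℤ)) (y₁ y₂ : OnePoint (ZMod ℓ))
    (h : mapGL ℝ g * heckeRep ℓ y₁ = heckeRep ℓ y₂) : y₁ = y₂ := by
  have hℓ2 : 2 ≤ ℓ := (Fact.out : ℓ.Prime).two_le
  have hℓ0 : ℓ ≠ 0 := (Fact.out : ℓ.Prime).ne_zero
  have hdet := det_eq g
  induction y₁ using OnePoint.rec with
  | infty =>
    induction y₂ using OnePoint.rec with
    | infty => rfl
    | coe j₂ =>
      exfalso
      rw [heckeRep_infty, heckeRep_coe] at h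
      have h00 := congrArg (fun M : GL (Fin 2) ℝ => M 0 0) h
      simp only [Matrix.GeneralLinearGroup.coe_mul, Matrix.mul_apply, Fin.sum_univ_two] at h00
      simp [hℓ0, -ZMod.natCast_val] at h00
      -- g 0 0 * ℓ = 1
      have h2 : g 0 0 * (ℓ : ℤ) = 1 := by exact_mod_cast h00
      have h3 : ((ℓ : ℤ)) ∣ 1 := Dvd.intro_left _ h2
      have h4 := Int.le_of_dvd one_pos h3
      omega
  | coe j₁ =>
    induction y₂ using OnePoint.rec with
    | infty =>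
      exfalso
      rw [heckeRep_infty, heckeRep_coe] at h
      have h00 := congrArg (fun M : GL (Fin 2) ℝ => M 0 0) h
      have h10 := congrArg (fun M : GL (Fin 2) ℝ => M 1 0) h
      simp only [Matrix.GeneralLinearGroup.coe_mul, Matrix.mul_apply, Fin.sum_univ_two] at h00 h10
      simp [hℓ0, -ZMod.natCast_val] at h00 h10
      -- g 0 0 = ℓ, g 1 0 = 0
      have h2 : g 0 0 = (ℓ : ℤ) := by exact_mod_cast h00
      have h3 : g 1 0 = 0 := by exact_mod_cast h10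
      rw [h2, h3, mul_zero, sub_zero] at hdet
      have h4 : ((ℓ : ℤ)) ∣ 1 := Dvd.intro _ hdet
      have h5 := Int.le_of_dvd one_pos h4
      omega
    | coe j₂ =>
      rw [heckeRep_coe, heckeRep_coe] at h
      rw [heckeMatrix_unique ℓ g j₁ j₂ h]

end Uniq

/-- **LB-INV, `T`-type.**  Definition-independent compatibility of the coset sums with the
involution `jConjGamma0`. -/
theorem sum_jConj_heckeRep {N : ℕ} {l : ℕ} [Fact l.Prime] {A : Type*} [AddCommGroup A]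
    (φ : Additive ↥(Gamma0 N) →+ A) (γ : ↥(Gamma0 N)) (σ σ' : Equiv.Perm (OnePoint (ZMod l)))
    (t t' : OnePoint (ZMod l) → ↥(Gamma0 N))
    (h : ∀ x, heckeRep l x * mapGL ℝ (γ : SL(2, ℤ))
      = mapGL ℝ (t x : SL(2, ℤ)) * heckeRep l (σ x))
    (h' : ∀ x, heckeRep l x * mapGL ℝ ((jConjGamma0 N γ : ↥(Gamma0 N)) : SL(2, ℤ))
      = mapGL ℝ (t' x : SL(2, ℤ)) * heckeRep l (σ' x)) :
    ∑ x, φ (Additive.ofMul (jConjGamma0 N (t x))) = ∑ x, φ (Additive.ofMul (t' x)) := by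
  choose δ hδ using Jreal_conj_heckeRep N l
  exact sum_eq_sum_of_rel_of_unique (iotaGL N) (iotaGL_injective N) (jConjGamma0 N γ)
    (fun x => heckeRep l x) (fun x => Jreal * heckeRep l x * Jreal) σ' σ
    t' (fun x => jConjGamma0 N (t x)) h'
    (fun x => Jreal_conj_rel N γ _ (h x))
    (MulAction.toPerm (Jbar l)) δ (fun x => hδ x)
    (fun g y₁ y₂ hg => heckeRep_unique l (g : SL(2, ℤ)) y₁ y₂ hg) φ

/-- **LB-INV, `U`-type.** -/
theorem sum_jConj_heckeMatrix {N : ℕ} {l : ℕ} [NeZero l] {A : Type*} [AddCommGroup A]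
    (φ : Additive ↥(Gamma0 N) →+ A) (γ : ↥(Gamma0 N)) (σ σ' : Equiv.Perm (ZMod l))
    (t t' : ZMod l → ↥(Gamma0 N))
    (h : ∀ x : ZMod l, ModularForm.heckeMatrix l x.val * mapGL ℝ (γ : SL(2, ℤ))
      = mapGL ℝ (t x : SL(2, ℤ)) * ModularForm.heckeMatrix l (σ x).val)
    (h' : ∀ x : ZMod l, ModularForm.heckeMatrix l x.val *
        mapGL ℝ ((jConjGamma0 N γ : ↥(Gamma0 N)) : SL(2, ℤ))
      = mapGL ℝ (t' x : SL(2, ℤ)) * ModularForm.heckeMatrix l (σ' x).val) :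
    ∑ x, φ (Additive.ofMul (jConjGamma0 N (t x))) = ∑ x, φ (Additive.ofMul (t' x)) := by
  choose δ hδ using Jreal_conj_heckeMatrix N l
  exact sum_eq_sum_of_rel_of_unique (iotaGL N) (iotaGL_injective N) (jConjGamma0 N γ)
    (fun x : ZMod l => ModularForm.heckeMatrix l x.val)
    (fun x : ZMod l => Jreal * ModularForm.heckeMatrix l x.val * Jreal) σ' σ
    t' (fun x => jConjGamma0 N (t x)) h'
    (fun x => Jreal_conj_rel N γ _ (h x))
    (Equiv.neg (ZMod l)) δ (fun x => hδ x)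
    (fun g y₁ y₂ hg => heckeMatrix_unique l (g : SL(2, ℤ)) y₁ y₂ hg) φ

end Involution

end Fermat.Agent.S16_helper9
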